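import Fermat.Agent.S36.Abs.Genus
import Fermat.Agent.S36.Abs.Sep

/-!
# S36 / Abs, file `LyingOver`: abstract gluing lemmas

`T` a finite family of reductions of `F`, `x : F` a coordinate with `deg (x)_∞ = ∑ᵢ deg (x̄ᵢ)_∞`.
`B = {y ∈ T.O regular outside the poles of x}` (`InB T x y`).  Two points `P`, `Q` of the components are GLUED (`GluedAt T x P Q`)
if all `y ∈ B` take the same value at `P` and `Q`.

* `ev_eq_zero_of_pole` (L2): if `G ∈ B`-up-to-scaling has a pole at `P` (on a component where it is integral), then every `y ∈ B` which is small on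
  all the components where `G` is not integral vanishes at `P`;
* `exists_dependent` (L1a): `B̄` has finite codimension in the ring of all families of regular functions;
* `exists_gluedAt` (L1): lying over: if every `y ∈ B` which vanishes on the components of `I₂` vanishes at `P`, then `P` is glued to a point of a component
  of `I₂`.
-/

set_option autoImplicit false

namespace Fermat.Agent.S36.Abs

open AlgebraicCurve Fermat.Agent.Lib.RR Fermat.Agent.GAL.RED Fermat.Agent.DR.Abs

variable {K F k : Type*} [Field K] [Field F] [Algebra K F] [Field k] {ι : Type*}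
  {Fb : ι → Type*} [∀ i, Field (Fb i)] [∀ i, Algebra k (Fb i)]

/-- `y` is integral on all the components and regular outside the poles of `x`. -/
def InB [HasPrincipalDivisors K F] (T : MultiRed K F k Fb) (x y : F) : Prop :=
  y ∈ T.O ∧ ∃ a : ℕ, y ∈ riemannRochSpace (a • poleDiv (K := K) x)

/-- the points `P`, `Q` of the special fibre are glued. -/
def GluedAt [HasPrincipalDivisors K F] (T : MultiRed K F k Fb) (x : F) {i j : ι} (P : Place k (Fb i))
    (Q : Place k (Fb j)) : Prop :=
  ∀ y, InB T x y → ev P ((T.R i).red y) = ev Q ((T.R j).red y)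

variable [IsFF K F] [IsAlgClosed K] [∀ i, IsFF k (Fb i)] [IsAlgClosed k] [Fintype ι]

theorem InB.add {T : MultiRed K F k Fb} {x y z : F} (hy : InB T x y) (hz : InB T x z) :
    InB T x (y + z) := by
  obtain ⟨hyO, a, ha⟩ := hy
  obtain ⟨hzO, b, hb⟩ := hz
  have h0 : 0 ≤ poleDiv (K := K) x := poleBound_poleDiv_nonneg x
  refine ⟨T.O.add_mem hyO hzO, a + b, Submodule.add_mem _ ?_ ?_⟩
  · exact Fermat.Agent.DR.Abs.L_mono (nsmul_le_nsmul_left h0 (Nat.le_add_right a b)) ha
  · exact Fermat.Agent.DR.Abs.L_mono (nsmul_le_nsmul_left h0 (Nat.le_add_left b a)) hb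

theorem InB.mul {T : MultiRed K F k Fb} {x y z : F} (hy : InB T x y) (hz : InB T x z) :
    InB T x (y * z) := by
  obtain ⟨hyO, a, ha⟩ := hy
  obtain ⟨hzO, b, hb⟩ := hz
  refine ⟨T.O.mul_mem hyO hzO, a + b, ?_⟩
  rw [add_nsmul]
  exact mul_mem_L ha hb

theorem InB.pow {T : MultiRed K F k Fb} {x y : F} (hy : InB T x y) (n : ℕ) : InB T x (y ^ n) := by
  obtain ⟨hyO, a, ha⟩ := hy
  refine ⟨T.O.pow_mem hyO n, n * a, ?_⟩
  rw [mul_smul]
  exact pow_mem_L ha n

theorem InB.const (T : MultiRed K F k Fb) (x : F) {c : K} (hc : c ∈ T.A) :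
    InB T x (algebraMap K F c) := by
  refine ⟨T.algebraMap_mem hc, 0, ?_⟩
  rw [zero_smul, Algebra.algebraMap_eq_smul_one]
  exact Submodule.smul_mem _ _ (one_mem_L le_rfl)

theorem InB.coord {T : MultiRed K F k Fb} {x : F} (hx : x ∈ T.O) : InB T x x := by
  refine ⟨hx, 1, ?_⟩
  have h := pow_mem_L_poleDiv (k := K) x 1
  rwa [pow_one] at h

/-- the reduction of an element of `B` is regular outside the poles of the `x̄ᵢ`. -/
theorem InB.ord_nonneg {T : MultiRed K F k Fb} (hS : T.Sep) {x : F}
    (hx : ∀ i, (T.R i).red x ∉ Set.range (algebraMap k (Fb i)))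
    (hdeg : Divisor.degree (poleDiv (K := K) x) =
      ∑ i, Divisor.degree (poleDiv (K := k) ((T.R i).red x)))
    {y : F} (hy : InB T x y) (i : ι) (P : Place k (Fb i)) (hP : 0 ≤ P.ord ((T.R i).red x)) :
    0 ≤ P.ord ((T.R i).red y) := by
  obtain ⟨hyO, a, ha⟩ := hy
  exact (exists_mem_L_poleDiv_iff _ _).mp ⟨a, T.red_mem_L_of_mem_L hS x hx hdeg a y ha hyO i⟩ P hP

end Fermat.Agent.S36.Abs
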