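import Fermat.Agent.S36.Abs.LyingOver.Defs

/-! # S36 / Abs / LyingOver : (L1a) finite codimension -/

set_option autoImplicit false

namespace Fermat.Agent.S36.Abs

open AlgebraicCurve Fermat.Agent.Lib.RR Fermat.Agent.GAL.RED Fermat.Agent.DR.Abs

variable {K F k : Type*} [Field K] [Field F] [Algebra K F] [Field k] {ι : Type*}
  {Fb : ι → Type*} [∀ i, Field (Fb i)] [∀ i, Algebra k (Fb i)]

variable [IsFF K F] [IsAlgClosed K] [∀ i, IsFF k (Fb i)] [IsAlgClosed k] [Fintype ι]

/-- **(L1a) finite codimension.**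
PROOF. `hC : T.IsCartesian := MultiRed.isCartesian_of_degree_le hS x hx hdeg.le`.  Let `W a := {z | ∀ i, z i ∈ L(a (x̄ᵢ)_∞)}` (`= gluedSub` of the EMPTY node
datum `E = PEmpty`, so that `finrank_gluedSub` gives `dim W a = ∑ᵢ (a dᵢ + 1 - gᵢ)` for `a` large; or `Submodule.pi` + `ell_bipole_add` on every component),
`V a := T.redSub L(a (x)_∞) ≤ W a` (`red_mem_L_of_mem_L`), `dim V a = a d + 1 - g` (`genus_finrank_redSub`).  With `d = ∑ dᵢ` the difference is the
constant `g - 1 - ∑ (gᵢ - 1) =: δ ≥ 0`.  Given `t`, choose `a` large with `t l ∈ W a` for all `l` (`exists_mem_L_poleDiv_iff`, `L_mono`): the `δ + 1` classes of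
the `t l` in `W a / V a` are linearly dependent (`Module.finrank` of the quotient, `exists_nontrivial_relation_of_finrank_lt_card` or
`LinearIndependent.fintype_card_le_finrank`). -/
theorem exists_dependent [Nonempty ι] {T : MultiRed K F k Fb} (hS : T.Sep) {x : F}
    (hx : ∀ i, (T.R i).red x ∉ Set.range (algebraMap k (Fb i)))
    (hdeg : Divisor.degree (poleDiv (K := K) x) =
      ∑ i, Divisor.degree (poleDiv (K := k) ((T.R i).red x))) :
    ∃ δ : ℕ, ∀ t : Fin (δ + 1) → ∀ i, Fb i,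
      (∀ l i, ∀ Q : Place k (Fb i), 0 ≤ Q.ord ((T.R i).red x) → 0 ≤ Q.ord (t l i)) →
      ∃ c : Fin (δ + 1) → k, c ≠ 0 ∧ ∃ y, InB T x y ∧ T.red y = ∑ l, c l • t l := by
  classical
  let N : NodeData k Fb Empty :=
    ⟨fun e => e.elim, fun e => e.elim, fun e => e.elim, fun e => e.elim⟩
  have hN : N.Adapted (T.red x) :=
    ⟨fun a => by rcases a with e | e <;> exact e.elim, hx, fun e => e.elim, fun e => e.elim⟩
  have hC : T.IsCartesian := MultiRed.isCartesian_of_degree_le hS x hx hdeg.le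
  have hx0 : x ≠ 0 := genus_ne_zero (T := T) hx
  have hd : 0 < Divisor.degree (poleDiv (K := K) x) := by
    rw [hdeg]
    exact genus_sum_degree_pos (xb := T.red x) hx
  have hgl : NodesGlued T x N := fun y _ _ e => e.elim
  obtain ⟨a₂, h₂⟩ := finrank_gluedSub N (T.red x) hN
  set D : ℤ := (genusFF K F : ℤ) - 1 - ∑ i, ((genusFF k (Fb i) : ℤ) - 1) with hD
  refine ⟨D.toNat, fun t ht => ?_⟩
  have hch : ∀ l i, ∃ a : ℕ, t l i ∈ riemannRochSpace (a • poleDiv (K := k) ((T.R i).red x)) :=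
    fun l i => (exists_mem_L_poleDiv_iff _ _).mpr (ht l i)
  choose A hA using hch
  set a := a₂ + 2 * genusFF K F + ∑ l, ∑ i, A l i with ha
  have hAle : ∀ l i, A l i ≤ a := by
    intro l i
    have h1 : A l i ≤ ∑ i, A l i :=
      Finset.single_le_sum (f := fun i => A l i) (fun _ _ => Nat.zero_le _) (Finset.mem_univ i)
    have h2 : ∑ i, A l i ≤ ∑ l, ∑ i, A l i :=
      Finset.single_le_sum (f := fun l => ∑ i, A l i) (fun _ _ => Nat.zero_le _)
        (Finset.mem_univ l)
    omega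
  set W := gluedSub N (T.red x) hN 1 a 0 with hW
  set V := T.redSub (riemannRochSpace (bipole K x a 0)) with hV
  have hVW : V ≤ W := redSub_le_gluedSub hS hN hdeg hgl a
  obtain ⟨hfin, hdim⟩ := h₂ 1 a 0 (by omega)
  have h1 := genus_finrank_redSub hC hx0 hd a (by omega)
  have htW : ∀ l, t l ∈ W := fun l => mem_gluedSub.2 ⟨fun i => by
    have h3 := hA l i
    rw [← bipole_zero_right] at h3
    exact Fermat.Agent.DR.Abs.L_mono (bipole_mono _ (hAle l i) le_rfl) h3, fun e => e.elim⟩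
  have hWV : (Module.finrank k W : ℤ) = Module.finrank k V + D := by
    rw [h1, hdim, genus_sum_eq, hdeg, hD]
    simp only [MultiRed.red_apply, Fintype.card_empty, Nat.cast_zero]
    ring
  let V' : Submodule k W := V.comap W.subtype
  have e1 : Module.finrank k V' = Module.finrank k V :=
    (Submodule.comapSubtypeEquivOfLe hVW).finrank_eq
  have e2 := Submodule.finrank_quotient_add_finrank V'
  have hlt : Module.finrank k (W ⧸ V') < Fintype.card (Fin (D.toNat + 1)) := by
    rw [Fintype.card_fin]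
    omega
  have hnli : ¬ LinearIndependent k
      (fun l => (Submodule.Quotient.mk (⟨t l, htW l⟩ : W) : W ⧸ V')) := fun hli => by
    have := hli.fintype_card_le_finrank
    omega
  obtain ⟨c, hc, l₀, hl₀⟩ := Fintype.not_linearIndependent_iff.mp hnli
  refine ⟨c, fun h0 => hl₀ (congrFun h0 l₀), ?_⟩
  have h3 : (∑ l, c l • (⟨t l, htW l⟩ : W)) ∈ V' := by
    rw [← Submodule.Quotient.mk_eq_zero, ← hc, ← Submodule.mkQ_apply, map_sum]
    refine Finset.sum_congr rfl fun l _ => ?_
    rw [map_smul]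
    rfl
  have h4 : ∑ l, c l • t l ∈ V := by
    have h5 : ((∑ l, c l • (⟨t l, htW l⟩ : W) : W) : ∀ i, Fb i) = ∑ l, c l • t l := by
      rw [Submodule.coe_sum]
      rfl
    rw [← h5]
    exact h3
  obtain ⟨y, hyL, hyO, hy⟩ := h4
  exact ⟨y, ⟨hyO, a, by rwa [bipole_zero_right] at hyL⟩, hy⟩

end Fermat.Agent.S36.Abs
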