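import Fermat.Agent.S36.Abs.LyingOver.Defs

/-! # S36 / Abs / LyingOver : (L1b) separation -/

set_option autoImplicit false

namespace Fermat.Agent.S36.Abs

open AlgebraicCurve Fermat.Agent.Lib.RR Fermat.Agent.GAL.RED Fermat.Agent.DR.Abs

variable {K F k : Type*} [Field K] [Field F] [Algebra K F] [Field k] {ι : Type*}
  {Fb : ι → Type*} [∀ i, Field (Fb i)] [∀ i, Algebra k (Fb i)]

variable [IsFF K F] [IsAlgClosed K] [∀ i, IsFF k (Fb i)] [IsAlgClosed k] [Fintype ι]

theorem Separate_ev_mul {T : MultiRed K F k Fb} (hS : T.Sep) {x : F}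
    (hx : ∀ i, (T.R i).red x ∉ Set.range (algebraMap k (Fb i)))
    (hdeg : Divisor.degree (poleDiv (K := K) x) =
      ∑ i, Divisor.degree (poleDiv (K := k) ((T.R i).red x)))
    {y z : F} (hy : InB T x y) (hz : InB T x z) (j : ι) (Q : Place k (Fb j))
    (hQ : 0 ≤ Q.ord ((T.R j).red x)) :
    ev Q ((T.R j).red (y * z)) = ev Q ((T.R j).red y) * ev Q ((T.R j).red z) := by
  rw [(T.R j).red_mul (hy.1 j) (hz.1 j),
    ev_mul Q (hy.ord_nonneg hS hx hdeg j Q hQ) (hz.ord_nonneg hS hx hdeg j Q hQ)]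

theorem Separate_prod {T : MultiRed K F k Fb} (hS : T.Sep) {x : F}
    (hx : ∀ i, (T.R i).red x ∉ Set.range (algebraMap k (Fb i)))
    (hdeg : Divisor.degree (poleDiv (K := K) x) =
      ∑ i, Divisor.degree (poleDiv (K := k) ((T.R i).red x)))
    {κ : Type*} (U : Finset κ) (f : κ → F) (hf : ∀ p ∈ U, InB T x (f p)) :
    InB T x (∏ p ∈ U, f p) ∧ ∀ (j : ι) (Q : Place k (Fb j)), 0 ≤ Q.ord ((T.R j).red x) →
      ev Q ((T.R j).red (∏ p ∈ U, f p)) = ∏ p ∈ U, ev Q ((T.R j).red (f p)) := by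
  classical
  induction U using Finset.induction_on with
  | empty =>
    refine ⟨?_, fun j Q _ => ?_⟩
    · have h1 := InB.const T x (c := 1) T.A.one_mem
      rwa [map_one] at h1
    · rw [Finset.prod_empty, Finset.prod_empty, RedData.red_one]
      have h1 := ev_algebraMap Q (1 : k)
      rwa [map_one] at h1
  | insert a U ha ih =>
    obtain ⟨ih1, ih2⟩ := ih fun p hp => hf p (Finset.mem_insert_of_mem hp)
    have h1 := hf a (Finset.mem_insert_self a U)
    refine ⟨?_, fun j Q hQ => ?_⟩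
    · rw [Finset.prod_insert ha]
      exact h1.mul ih1
    · rw [Finset.prod_insert ha, Finset.prod_insert ha,
        Separate_ev_mul hS hx hdeg h1 ih1 j Q hQ, ih2 j Q hQ]

/-- **(L1b)** separation: if `P` is not glued to any of the finitely many points `Q ∈ S j`, there is `b ∈ B` with `b(P) = 1`, `b(Q) = 0`.
PROOF. For each pair `(j, Q)` there is `y ∈ B` with `y(P) ≠ y(Q)`; lift the constants `y(Q)`, `(y(P) - y(Q))⁻¹` to `A` (`T.redA_surj`):
`b_{j,Q} := c' • (y - c) ∈ B` has `b(P) = 1`, `b(Q) = 0` (`ev_sub`, `ev_smul`, `ev_algebraMap`, `InB.ord_nonneg`).  Take the product over all pairs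
(`Finset.prod` over `Finset.univ.sigma S`; `ev_mul` by induction). -/
theorem exists_separating_InB {T : MultiRed K F k Fb} (hS : T.Sep) {x : F}
    (hx : ∀ i, (T.R i).red x ∉ Set.range (algebraMap k (Fb i)))
    (hdeg : Divisor.degree (poleDiv (K := K) x) =
      ∑ i, Divisor.degree (poleDiv (K := k) ((T.R i).red x)))
    {i : ι} {P : Place k (Fb i)} (hP : 0 ≤ P.ord ((T.R i).red x))
    (S : ∀ j, Finset (Place k (Fb j))) (hSx : ∀ j, ∀ Q ∈ S j, 0 ≤ Q.ord ((T.R j).red x))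
    (hne : ∀ j, ∀ Q ∈ S j, ¬ GluedAt T x P Q) :
    ∃ b, InB T x b ∧ ev P ((T.R i).red b) = 1 ∧ ∀ j, ∀ Q ∈ S j, ev Q ((T.R j).red b) = 0 := by
  classical
  have hsingle : ∀ j, ∀ Q ∈ S j, ∃ b, InB T x b ∧ ev P ((T.R i).red b) = 1 ∧
      ev Q ((T.R j).red b) = 0 := by
    intro j Q hQ
    have h1 := hne j Q hQ
    unfold GluedAt at h1
    push Not at h1
    obtain ⟨y, hy, hyne⟩ := h1
    obtain ⟨c, hcA, hc⟩ := T.redA_surj (-ev Q ((T.R j).red y))
    obtain ⟨c', hc'A, hc'⟩ := T.redA_surj (ev P ((T.R i).red y) - ev Q ((T.R j).red y))⁻¹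
    have hB1 : InB T x (y + algebraMap K F c) := hy.add (InB.const T x hcA)
    have hB2 : InB T x (algebraMap K F c') := InB.const T x hc'A
    have hval : ∀ (j' : ι) (Q' : Place k (Fb j')), 0 ≤ Q'.ord ((T.R j').red x) →
        ev Q' ((T.R j').red (algebraMap K F c' * (y + algebraMap K F c))) =
          (ev P ((T.R i).red y) - ev Q ((T.R j).red y))⁻¹ *
            (ev Q' ((T.R j').red y) + -ev Q ((T.R j).red y)) := by
      intro j' Q' hQ'
      rw [Separate_ev_mul hS hx hdeg hB2 hB1 j' Q' hQ',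
        (T.R j').red_add (hy.1 j') ((InB.const T x hcA).1 j'),
        (T.R j').red_algebraMap', (T.R j').red_algebraMap', T.redA_eq, T.redA_eq, hc, hc',
        ev_algebraMap, ev_add Q' (hy.ord_nonneg hS hx hdeg j' Q' hQ') (by rw [ord_algebraMap]),
        ev_algebraMap]
    refine ⟨algebraMap K F c' * (y + algebraMap K F c), hB2.mul hB1, ?_, ?_⟩
    · rw [hval i P hP, ← sub_eq_add_neg]
      exact inv_mul_cancel₀ (sub_ne_zero.mpr hyne)
    · rw [hval j Q (hSx j Q hQ), add_neg_cancel, mul_zero]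
  choose! b hbB hbP hbQ using hsingle
  obtain ⟨h1, h2⟩ := Separate_prod hS hx hdeg (Finset.univ.sigma S)
    (fun p : Σ j, Place k (Fb j) => b p.1 p.2)
    (fun p hp => hbB p.1 p.2 (Finset.mem_sigma.mp hp).2)
  refine ⟨_, h1, ?_, fun j Q hQ => ?_⟩
  · rw [h2 i P hP]
    exact Finset.prod_eq_one fun p hp => hbP p.1 p.2 (Finset.mem_sigma.mp hp).2
  · rw [h2 j Q (hSx j Q hQ)]
    exact Finset.prod_eq_zero (i := (⟨j, Q⟩ : Σ j, Place k (Fb j)))
      (Finset.mem_sigma.mpr ⟨Finset.mem_univ j, hQ⟩) (hbQ j Q hQ)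

end Fermat.Agent.S36.Abs
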