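import Fermat.Agent.S36.Abs.LyingOver.Vanish
import Fermat.Agent.S36.Abs.LyingOver.Codim
import Fermat.Agent.S36.Abs.LyingOver.Separate

/-! # S36 / Abs / LyingOver : (L1) lying over -/

set_option autoImplicit false

namespace Fermat.Agent.S36.Abs

open AlgebraicCurve Fermat.Agent.Lib.RR Fermat.Agent.GAL.RED Fermat.Agent.DR.Abs

variable {K F k : Type*} [Field K] [Field F] [Algebra K F] [Field k] {ι : Type*}
  {Fb : ι → Type*} [∀ i, Field (Fb i)] [∀ i, Algebra k (Fb i)]

variable [IsFF K F] [IsAlgClosed K] [∀ i, IsFF k (Fb i)] [IsAlgClosed k] [Fintype ι]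

/-- **(L1) lying over.**
PROOF. By contradiction: no point `Q` of a component `j ∈ I₂` with `0 ≤ ord_Q x̄_j` is glued to `P`.  `ξ := ev P x̄ᵢ`, `c ∈ A` a lift, `x' := x - c ∈ B`,
`x̄'_j = x̄_j - ξ ≠ 0` (not constant).  `S j :=` the zeros of `x̄'_j` if `I₂ j` (a finite set: the support of `divOf`), `∅` otherwise.
`b` from `exists_separating_InB`.  Let `n ≥ 1` be larger than all `ord_Q x̄'_j`, `Q ∈ S j`.  `t j := b̄_j ^ n / x̄'_j` if `I₂ j`, `0` otherwise: regular outside the poles of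
`x̄_j` (at a zero `Q` of `x̄'_j`: `ord_Q b̄_j ≥ 1` by `ev_eq_zero_iff`; elsewhere `ord_Q x̄'_j = 0`).  `δ` from `exists_dependent`, applied to
`l ↦ t ^ (l + 1)`: `∑ c_l t ^ (l+1) = red β`, `β ∈ B`, `c ≠ 0`.  Let `L` be the largest index with `c_L ≠ 0`.
`γ := ∑_{l ≤ L} c'_l • b ^ (n (l+1)) * x' ^ (L - l) - β * x' ^ (L + 1) ∈ B` (`c'_l ∈ A` lifts of `c_l`) has `red_j γ = 0` for all `j ∈ I₂`, so `ev P (red_i γ) = 0` by `hV`.
But `ev P (x̄'_i) = 0` and `ev P b̄_i = 1` give `ev P (red_i γ) = c_L ≠ 0`. -/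
theorem exists_gluedAt [Nonempty ι] {T : MultiRed K F k Fb} (hS : T.Sep) {x : F}
    (hx : ∀ i, (T.R i).red x ∉ Set.range (algebraMap k (Fb i)))
    (hdeg : Divisor.degree (poleDiv (K := K) x) =
      ∑ i, Divisor.degree (poleDiv (K := k) ((T.R i).red x)))
    (I₂ : ι → Prop) {i : ι} {P : Place k (Fb i)} (hP : 0 ≤ P.ord ((T.R i).red x))
    (hV : ∀ y, InB T x y → (∀ j, I₂ j → (T.R j).red y = 0) → ev P ((T.R i).red y) = 0) :
    ∃ j, I₂ j ∧ ∃ Q : Place k (Fb j), 0 ≤ Q.ord ((T.R j).red x) ∧ GluedAt T x P Q := by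
  classical
  by_contra hcon
  push Not at hcon
  have hxO : x ∈ T.O := T.mem_of_red_ne_zero (fun j h0 => hx j ⟨0, by rw [map_zero]; exact h0.symm⟩)
  obtain ⟨c, hcA, hcξ⟩ := T.redA_surj (ev P ((T.R i).red x))
  set x' : F := x - algebraMap K F c with hx'def
  have hx'B : InB T x x' := by
    have := (InB.coord hxO).add (InB.const T x (c := -c) (T.A.neg_mem _ hcA))
    rwa [map_neg, ← sub_eq_add_neg] at this
  have hx'red : ∀ j, (T.R j).red x' =
      (T.R j).red x - algebraMap k (Fb j) (ev P ((T.R i).red x)) := by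
    intro j
    have := congrFun (T.red_sub hxO (T.algebraMap_mem hcA)) j
    rw [Pi.sub_apply, T.red_algebraMap, hcξ] at this
    exact this
  have hx'ne : ∀ j, (T.R j).red x' ≠ 0 := by
    intro j h0
    rw [hx'red, sub_eq_zero] at h0
    exact hx j ⟨_, h0.symm⟩
  let S : ∀ j, Finset (Place k (Fb j)) := fun j =>
    (divOf (K := k) ((T.R j).red x')).support.filter
      (fun Q => I₂ j ∧ 0 < Q.ord ((T.R j).red x'))
  have hS_mem : ∀ j (Q : Place k (Fb j)), Q ∈ S j ↔ I₂ j ∧ 0 < Q.ord ((T.R j).red x') := by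
    intro j Q
    simp only [S, Finset.mem_filter, Finsupp.mem_support_iff, divOf_apply]
    exact ⟨fun h => h.2, fun h => ⟨h.2.ne', h⟩⟩
  have hreg_x : ∀ j (Q : Place k (Fb j)), 0 < Q.ord ((T.R j).red x') →
      0 ≤ Q.ord ((T.R j).red x) := by
    intro j Q h
    have h1 : (T.R j).red x =
        (T.R j).red x' + algebraMap k (Fb j) (ev P ((T.R i).red x)) := by
      rw [hx'red]; ring
    rw [h1]
    exact ord_add_nonneg Q h.le (ord_algebraMap Q _).ge
  obtain ⟨b, hbB, hbP, hbS⟩ := exists_separating_InB hS hx hdeg hP S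
    (fun j Q hQ => hreg_x j Q ((hS_mem j Q).1 hQ).2)
    (fun j Q hQ => hcon j ((hS_mem j Q).1 hQ).1 Q (hreg_x j Q ((hS_mem j Q).1 hQ).2))
  set n : ℕ := 1 + ∑ j, ∑ Q ∈ S j, (Q.ord ((T.R j).red x')).toNat with hndef
  have hn : ∀ j, ∀ Q ∈ S j, Q.ord ((T.R j).red x') ≤ n := by
    intro j Q hQ
    have h1 : (Q.ord ((T.R j).red x')).toNat ≤ ∑ Q ∈ S j, (Q.ord ((T.R j).red x')).toNat :=
      Finset.single_le_sum (f := fun Q : Place k (Fb j) => (Q.ord ((T.R j).red x')).toNat)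
        (fun _ _ => Nat.zero_le _) hQ
    have h2 : ∑ Q ∈ S j, (Q.ord ((T.R j).red x')).toNat ≤
        ∑ j, ∑ Q ∈ S j, (Q.ord ((T.R j).red x')).toNat :=
      Finset.single_le_sum (f := fun j => ∑ Q ∈ S j, (Q.ord ((T.R j).red x')).toNat)
        (fun _ _ => Nat.zero_le _) (Finset.mem_univ j)
    have h3 := Int.self_le_toNat (Q.ord ((T.R j).red x'))
    omega
  have hn1 : 1 ≤ n := by omega
  let t : ∀ j, Fb j := fun j => if I₂ j then (T.R j).red b ^ n / (T.R j).red x' else 0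
  have ht_reg : ∀ j (Q : Place k (Fb j)), 0 ≤ Q.ord ((T.R j).red x) → 0 ≤ Q.ord (t j) := by
    intro j Q hQ
    by_cases hj : I₂ j
    · simp only [t, if_pos hj]
      by_cases hb0 : (T.R j).red b = 0
      · rw [hb0, zero_pow (by omega), zero_div, Place.ord_zero]
      · have hbreg : 0 ≤ Q.ord ((T.R j).red b) := hbB.ord_nonneg hS hx hdeg j Q hQ
        rw [div_eq_mul_inv, Place.ord_mul Q (pow_ne_zero n hb0) (inv_ne_zero (hx'ne j)),
          Place.ord_inv, ord_pow]
        by_cases hpos : 0 < Q.ord ((T.R j).red x')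
        · have hQS : Q ∈ S j := (hS_mem j Q).2 ⟨hj, hpos⟩
          have h1 := (ev_eq_zero_iff Q hbreg).1 (hbS j Q hQS)
          have h2 : 1 ≤ Q.ord ((T.R j).red b) := by
            rcases h1 with h1 | h1
            · exact absurd h1 hb0
            · omega
          have h3 := hn j Q hQS
          nlinarith
        · have h4 : 0 ≤ (n : ℤ) * Q.ord ((T.R j).red b) := by positivity
          omega
    · simp only [t, if_neg hj, Place.ord_zero, le_refl]
  obtain ⟨δ, hδ⟩ := exists_dependent hS hx hdeg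
  obtain ⟨cc, hcc0, β, hβB, hβ⟩ := hδ (fun l => t ^ ((l : ℕ) + 1)) (by
    intro l j Q hQ
    rw [Pi.pow_apply, ord_pow]
    have := ht_reg j Q hQ
    positivity)
  have hne : (Finset.univ.filter (fun l => cc l ≠ 0)).Nonempty := by
    by_contra h
    rw [Finset.not_nonempty_iff_eq_empty, Finset.filter_eq_empty_iff] at h
    apply hcc0
    funext l
    simpa using h (Finset.mem_univ l)
  obtain ⟨L, hLmem, hLmax⟩ := Finset.exists_max_image _ (fun l : Fin (δ + 1) => (l : ℕ)) hne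
  have hL0 : cc L ≠ 0 := (Finset.mem_filter.1 hLmem).2
  have hLle : ∀ l, cc l ≠ 0 → (l : ℕ) ≤ (L : ℕ) := fun l hl =>
    hLmax l (Finset.mem_filter.2 ⟨Finset.mem_univ l, hl⟩)
  choose c' hc'A hc' using fun l => T.redA_surj (cc l)
  -- closure properties of `B`
  have hBsmul : ∀ (a : K), a ∈ T.A → ∀ y, InB T x y → InB T x (a • y) := by
    intro a ha y hy
    rw [Algebra.smul_def]
    exact (InB.const T x ha).mul hy
  have hBsum : ∀ (s : Finset (Fin (δ + 1))) (y : Fin (δ + 1) → F), (∀ l, InB T x (y l)) →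
      InB T x (∑ l ∈ s, y l) := by
    intro s y hy
    induction s using Finset.induction_on with
    | empty =>
      rw [Finset.sum_empty]
      have := InB.const T x (c := 0) T.A.zero_mem
      rwa [map_zero] at this
    | insert a s ha ih =>
      rw [Finset.sum_insert ha]
      exact (hy a).add ih
  have hBneg : ∀ y, InB T x y → InB T x (-y) := by
    intro y hy
    have := hBsmul (-1) (T.A.neg_mem _ T.A.one_mem) y hy
    rwa [neg_smul, one_smul] at this
  let term : Fin (δ + 1) → F := fun l => b ^ (n * ((l : ℕ) + 1)) * x' ^ ((L : ℕ) - (l : ℕ))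
  have htermB : ∀ l, InB T x (term l) := fun l => (hbB.pow _).mul (hx'B.pow _)
  set γ : F := ∑ l, c' l • term l - β * x' ^ ((L : ℕ) + 1) with hγdef
  have hγB : InB T x γ := by
    rw [hγdef, sub_eq_add_neg]
    exact (hBsum _ _ fun l => hBsmul _ (hc'A l) _ (htermB l)).add
      (hBneg _ (hβB.mul (hx'B.pow _)))
  have hγred : T.red γ = ∑ l, cc l • (T.red b ^ (n * ((l : ℕ) + 1)) * T.red x' ^ ((L : ℕ) - (l : ℕ)))
      - (∑ l, cc l • t ^ ((l : ℕ) + 1)) * T.red x' ^ ((L : ℕ) + 1) := by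
    rw [hγdef, T.red_sub (hBsum _ _ fun l => hBsmul _ (hc'A l) _ (htermB l)).1
      (hβB.mul (hx'B.pow _)).1, T.red_sum _ _ (fun l _ => (hBsmul _ (hc'A l) _ (htermB l)).1),
      T.red_mul hβB.1 (hx'B.pow _).1, hβ, T.red_pow]
    congr 1
    refine Finset.sum_congr rfl fun l _ => ?_
    rw [T.red_smul (hc'A l) (htermB l).1, hc' l, T.red_mul (hbB.pow _).1 (hx'B.pow _).1, T.red_pow,
      T.red_pow]
  -- `γ` vanishes on the components of `I₂`
  have hγ0 : ∀ j, I₂ j → (T.R j).red γ = 0 := by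
    intro j hj
    have h1 := congrFun hγred j
    rw [MultiRed.red_apply] at h1
    rw [h1]
    simp only [Pi.sub_apply, Pi.mul_apply, Finset.sum_apply, Pi.smul_apply, Pi.pow_apply,
      MultiRed.red_apply]
    rw [Finset.sum_mul, ← Finset.sum_sub_distrib]
    refine Finset.sum_eq_zero fun l _ => ?_
    by_cases hl : cc l = 0
    · rw [hl, zero_smul, zero_smul, zero_mul, sub_zero]
    · have hle := hLle l hl
      have e2 : t j = (T.R j).red b ^ n / (T.R j).red x' := if_pos hj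
      have e1 : (T.R j).red x' ^ ((L : ℕ) + 1) =
          (T.R j).red x' ^ ((l : ℕ) + 1) * (T.R j).red x' ^ ((L : ℕ) - (l : ℕ)) := by
        rw [← pow_add]
        congr 1
        omega
      have key : ((T.R j).red b ^ n / (T.R j).red x') ^ ((l : ℕ) + 1) *
          (T.R j).red x' ^ ((L : ℕ) + 1) =
          (T.R j).red b ^ (n * ((l : ℕ) + 1)) * (T.R j).red x' ^ ((L : ℕ) - (l : ℕ)) := by
        rw [div_pow, e1, ← mul_assoc, div_mul_cancel₀ _ (pow_ne_zero _ (hx'ne j)), ← pow_mul]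
      rw [e2, smul_mul_assoc, key, sub_self]
  have hev0 := hV γ hγB hγ0
  -- but its value at `P` is `cc L`
  have hbreg : 0 ≤ P.ord ((T.R i).red b) := hbB.ord_nonneg hS hx hdeg i P hP
  have hx'reg : 0 ≤ P.ord ((T.R i).red x') := hx'B.ord_nonneg hS hx hdeg i P hP
  have hβreg : 0 ≤ P.ord ((T.R i).red β) := hβB.ord_nonneg hS hx hdeg i P hP
  have hx'ev : ev P ((T.R i).red x') = 0 := by
    rw [hx'red, ev_sub P hP (ord_algebraMap P _).ge, ev_algebraMap, sub_self]
  have hpowreg : ∀ {u : Fb i}, 0 ≤ P.ord u → ∀ m : ℕ, 0 ≤ P.ord (u ^ m) := by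
    intro u hu m
    rw [ord_pow]
    positivity
  have hγi : (T.R i).red γ = ∑ l, cc l • ((T.R i).red b ^ (n * ((l : ℕ) + 1)) *
      (T.R i).red x' ^ ((L : ℕ) - (l : ℕ))) - (T.R i).red β * (T.R i).red x' ^ ((L : ℕ) + 1) := by
    have h1 := congrFun hγred i
    rw [← hβ] at h1
    simpa only [Pi.sub_apply, Pi.mul_apply, Finset.sum_apply, Pi.smul_apply, Pi.pow_apply,
      MultiRed.red_apply] using h1
  have htreg : ∀ l : Fin (δ + 1), 0 ≤ P.ord (cc l • ((T.R i).red b ^ (n * ((l : ℕ) + 1)) *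
      (T.R i).red x' ^ ((L : ℕ) - (l : ℕ)))) := fun l =>
    ord_smul_nonneg P _ (ord_mul_nonneg P (hpowreg hbreg _) (hpowreg hx'reg _))
  rw [hγi, ev_sub P (ord_sum_nonneg P _ _ fun l _ => htreg l)
    (ord_mul_nonneg P hβreg (hpowreg hx'reg _)), ev_sum P _ _ (fun l _ => htreg l),
    ev_mul P hβreg (hpowreg hx'reg _), ev_pow P hx'reg, hx'ev, zero_pow (Nat.succ_ne_zero _),
    mul_zero, sub_zero, Finset.sum_eq_single L] at hev0
  · rw [ev_smul P _ (ord_mul_nonneg P (hpowreg hbreg _) (hpowreg hx'reg _)),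
      ev_mul P (hpowreg hbreg _) (hpowreg hx'reg _), ev_pow P hbreg, ev_pow P hx'reg, hbP, one_pow,
      Nat.sub_self, pow_zero, mul_one, mul_one] at hev0
    exact hL0 hev0
  · intro l _ hlL
    rw [ev_smul P _ (ord_mul_nonneg P (hpowreg hbreg _) (hpowreg hx'reg _)),
      ev_mul P (hpowreg hbreg _) (hpowreg hx'reg _), ev_pow P hx'reg, hx'ev]
    by_cases hl : cc l = 0
    · rw [hl, zero_mul]
    · have hle := hLle l hl
      have hlt : (l : ℕ) < (L : ℕ) := lt_of_le_of_ne hle (fun h => hlL (Fin.ext h))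
      rw [zero_pow (by omega), mul_zero, mul_zero]
  · intro h
    exact absurd (Finset.mem_univ L) h

/-- **(L1) + (L2).**  `G` integral on the component `i`, with a pole at `P`; then `P` is glued to a point of a component on which `G` is not integral. -/
theorem exists_gluedAt_of_pole [Nonempty ι] {T : MultiRed K F k Fb} (hS : T.Sep) (hsc : HasScales T)
    (hr : RankOne T) {x : F} (hx : ∀ i, (T.R i).red x ∉ Set.range (algebraMap k (Fb i)))
    (hdeg : Divisor.degree (poleDiv (K := K) x) =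
      ∑ i, Divisor.degree (poleDiv (K := k) ((T.R i).red x)))
    {G : F} (hG : ∃ a : ℕ, G ∈ riemannRochSpace (a • poleDiv (K := K) x))
    {i : ι} (hGi : G ∈ (T.R i).O) {P : Place k (Fb i)} (hP : 0 ≤ P.ord ((T.R i).red x))
    (hGP : P.ord ((T.R i).red G) < 0) :
    ∃ j, G ∉ (T.R j).O ∧ ∃ Q : Place k (Fb j), 0 ≤ Q.ord ((T.R j).red x) ∧ GluedAt T x P Q :=
  exists_gluedAt hS hx hdeg (fun j => G ∉ (T.R j).O) hP
    (fun _ hy hsmall => ev_eq_zero_of_pole hS hsc hr hx hdeg hG hGi hP hGP hy hsmall)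

end Fermat.Agent.S36.Abs
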