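import Fermat.Agent.S36.Abs.LyingOver.Defs

/-! # S36 / Abs / LyingOver : (L2) vanishing -/

set_option autoImplicit false

namespace Fermat.Agent.S36.Abs

open AlgebraicCurve Fermat.Agent.Lib.RR Fermat.Agent.GAL.RED Fermat.Agent.DR.Abs

variable {K F k : Type*} [Field K] [Field F] [Algebra K F] [Field k] {ι : Type*}
  {Fb : ι → Type*} [∀ i, Field (Fb i)] [∀ i, Algebra k (Fb i)]

variable [IsFF K F] [IsAlgClosed K] [∀ i, IsFF k (Fb i)] [IsAlgClosed k] [Fintype ι]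

/-- **(L2) vanishing.**
PROOF. If `red_i y = 0` the claim is `ev P 0 = 0`.  For every `j` with `G ∉ O_j`, `exists_pow_mul_small T hsc hr (hy.1 j) (hsmall j _) G` gives `n₀ j` with
`y ^ n * G ∈ O_j` for `n ≥ n₀ j`; for the other `j` this holds for all `n`.  Let `n ≥ 1` be larger than all of them.  `y ^ n * G ∈ B` (`mul_mem_L`, `pow_mem_L`),
so by `InB.ord_nonneg`: `0 ≤ ord_P (red_i (y ^ n * G)) = n * ord_P (red_i y) + ord_P (red_i G)` (`RedData.red_mul`, `red_pow`, `Place.ord_mul`, `ord_pow`),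
hence `0 < ord_P (red_i y)` and `ev P (red_i y) = 0` (`ev_eq_zero_iff`). -/
theorem ev_eq_zero_of_pole {T : MultiRed K F k Fb} (hS : T.Sep) (hsc : HasScales T) (hr : RankOne T)
    {x : F} (hx : ∀ i, (T.R i).red x ∉ Set.range (algebraMap k (Fb i)))
    (hdeg : Divisor.degree (poleDiv (K := K) x) =
      ∑ i, Divisor.degree (poleDiv (K := k) ((T.R i).red x)))
    {G : F} (hG : ∃ a : ℕ, G ∈ riemannRochSpace (a • poleDiv (K := K) x))
    {i : ι} (hGi : G ∈ (T.R i).O) {P : Place k (Fb i)} (hP : 0 ≤ P.ord ((T.R i).red x))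
    (hGP : P.ord ((T.R i).red G) < 0)
    {y : F} (hy : InB T x y) (hsmall : ∀ j, G ∉ (T.R j).O → (T.R j).red y = 0) :
    ev P ((T.R i).red y) = 0 := by
  classical
  by_cases h0 : (T.R i).red y = 0
  · rw [h0]
    exact ev_zero P
  have hN : ∀ j, ∃ n₀ : ℕ, ∀ n, n₀ ≤ n → y ^ n * G ∈ (T.R j).O := by
    intro j
    by_cases hj : G ∈ (T.R j).O
    · exact ⟨0, fun n _ => (T.R j).O.mul_mem _ _ ((T.R j).O.pow_mem (hy.1 j) n) hj⟩
    · obtain ⟨n₀, h⟩ := exists_pow_mul_small T hsc hr (hy.1 j) (hsmall j hj) G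
      exact ⟨n₀, fun n hn => (h n hn).1⟩
  choose N hN using hN
  set n : ℕ := 1 + ∑ j, N j with hn
  have hnj : ∀ j, N j ≤ n := fun j =>
    (Finset.single_le_sum (f := fun j => N j) (fun _ _ => Nat.zero_le _) (Finset.mem_univ j)).trans
      (Nat.le_add_left _ _)
  have hB : InB T x (y ^ n * G) := by
    refine ⟨fun j => hN j n (hnj j), ?_⟩
    obtain ⟨a, ha⟩ := (hy.pow n).2
    obtain ⟨b, hb⟩ := hG
    exact ⟨a + b, by rw [add_smul]; exact mul_mem_L ha hb⟩
  have hG0 : (T.R i).red G ≠ 0 := by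
    intro h
    rw [h, Place.ord_zero] at hGP
    exact lt_irrefl _ hGP
  have h1 := hB.ord_nonneg hS hx hdeg i P hP
  rw [(T.R i).red_mul ((T.R i).O.pow_mem (hy.1 i) n) hGi, (T.R i).red_pow,
    P.ord_mul (pow_ne_zero n h0) hG0, ord_pow] at h1
  have h2 : 0 < P.ord ((T.R i).red y) := by
    by_contra hneg
    push Not at hneg
    have h3 : (n : ℤ) * P.ord ((T.R i).red y) ≤ 0 :=
      mul_nonpos_of_nonneg_of_nonpos (Int.natCast_nonneg n) hneg
    omega
  exact (ev_eq_zero_iff P h2.le).2 (Or.inr h2)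

end Fermat.Agent.S36.Abs
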